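import Mathlib

/-!
# S43 / GS3 / Formal : the formal derivation of (R) from the tower, at ONE finite level

`H` (to be thought of as `H' = H_a / Nm H_a`, the tower module at exponent `p ^ a` modulo norms) is an abelian group with
additive operators `dl` (the diamond `δ`), `Sg` (tame generator `Σ`), `ph` (Frobenius `φ`), pairwise commuting,
`(Σ - 1)(Σ - δ) = 0`, and an "Atkin-Lehner" operator `io`.  `w = δ - 1`, `ν = Σ - 1`, `ψ = φ - q φ⁻¹`,
`C = (2 ν - w) ψ`   (`= 2 t(Σ φ) - t(Σ) t(φ)`, a central element by Cayley-Hamilton).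

* `exists_div`      : division by `w ^ 2` on `V = H / w H`;
* `exists_sq`       : `C H ⊆ w ^ 2 H` (parity under `io`);
* `exists_beta`     : `β : V →+ V`, commuting with everything which commutes with `w` and `C`, with `2 β N = Φ - q Φ⁻¹`.
-/

set_option autoImplicit false

namespace Fermat.Agent.S43.GS3

variable {H V : Type*} [AddCommGroup H] [AddCommGroup V]

/-- `w ^ 2 z = 0 ⟹ z ∈ w H`. -/
theorem mem_of_sq_eq_zero (w : AddMonoid.End H)
    (hU : ∀ z, w z = 0 → ∃ u, z = w (w u)) (z : H) (hz : w (w z) = 0) : ∃ u, z = w u := by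
  obtain ⟨u1, hu1⟩ := hU (w z) hz
  have h1 : w (z - w u1) = 0 := by rw [map_sub, hu1, sub_self]
  obtain ⟨u2, hu2⟩ := hU _ h1
  refine ⟨u1 + w u2, ?_⟩
  rw [map_add, ← hu2]
  abel

/-- **division by `w ^ 2`.** -/
theorem exists_div (w C : AddMonoid.End H) (hwC : Commute w C)
    (hU : ∀ z, w z = 0 → ∃ u, z = w (w u))
    (hC : ∀ x, ∃ y, C x = w (w y))
    (bar : H →+ V) (hbar : Function.Surjective bar) (hker : ∀ x, bar x = 0 ↔ ∃ u, x = w u) :
    ∃ β : V →+ V, ∀ x y, C x = w (w y) → β (bar x) = bar y := by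
  classical
  have hcomm : ∀ x, C (w x) = w (C x) := fun x => (DFunLike.congr_fun hwC.eq x).symm
  have huniq : ∀ x x' y y', bar x = bar x' → C x = w (w y) → C x' = w (w y') → bar y = bar y' := by
    intro x x' y y' hxx hy hy'
    have h0 : bar (x - x') = 0 := by rw [map_sub, hxx, sub_self]
    obtain ⟨u, hu⟩ := (hker _).1 h0
    obtain ⟨yu, hyu⟩ := hC u
    have h1 : w (w (y - y' - w yu)) = 0 := by
      rw [map_sub, map_sub, map_sub, map_sub, ← hy, ← hy', ← hyu, ← hcomm, ← hu, map_sub, sub_self]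
    obtain ⟨u', hu'⟩ := mem_of_sq_eq_zero w hU _ h1
    have h2 : bar (y - y' - w yu) = 0 := (hker _).2 ⟨u', hu'⟩
    have h3 : bar (w yu) = 0 := (hker _).2 ⟨yu, rfl⟩
    rw [map_sub, map_sub, h3, sub_zero, sub_eq_zero] at h2
    exact h2
  choose lift hlift using hbar
  choose dv hdv using hC
  refine ⟨AddMonoidHom.mk' (fun v => bar (dv (lift v))) ?_, ?_⟩
  · intro v v'
    rw [← map_add]
    refine huniq (lift (v + v')) (lift v + lift v') _ _ ?_ (hdv _) ?_
    · rw [map_add, hlift, hlift, hlift]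
    · rw [map_add, map_add, map_add, hdv, hdv]
  · intro x y hxy
    exact huniq (lift (bar x)) x _ _ (hlift _) (hdv _) hxy

/-- **parity**: `C H ⊆ w H`, `io C = δ⁻¹ C io`, `io w = - δ⁻¹ w io`, `io = s` modulo `w` `⟹ C H ⊆ w ^ 2 H`. -/
theorem exists_sq (w C dl dli io : AddMonoid.End H) (s : ℤ) (hs : s * s = 1)
    (hdl : dl * dli = 1) (hwC : Commute w C)
    (hU : ∀ z, w z = 0 → ∃ u, z = w (w u))
    (h2 : ∀ z u, (2 : ℤ) • z = w u → ∃ u', z = w u')
    (h1 : ∀ x, ∃ d, C x = w d)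
    (iw : io * w = - (dli * w * io)) (iC : io * C = dli * C * io)
    (is : ∀ x, ∃ u, io x = s • x + w u) (x : H) : ∃ y, C x = w (w y) := by
  have hcomm : ∀ x, C (w x) = w (C x) := fun x => (DFunLike.congr_fun hwC.eq x).symm
  have hdl' : ∀ z, dl (dli z) = z := fun z => DFunLike.congr_fun hdl z
  obtain ⟨d, hd⟩ := h1 x
  obtain ⟨u, hu⟩ := is x
  obtain ⟨u', hu'⟩ := is d
  obtain ⟨du, hdu⟩ := h1 u
  -- `C (io x) = - w (io d)`
  have e1 : C (io x) = - w (io d) := by
    have a1 : io (C x) = dli (C (io x)) := DFunLike.congr_fun iC x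
    have a2 : io (w d) = - dli (w (io d)) := DFunLike.congr_fun iw d
    rw [hd, a2] at a1
    have a3 := congrArg dl a1
    rw [map_neg, hdl', hdl'] at a3
    exact a3.symm
  have e2 : C (io x) = w (s • d + w du) := by
    rw [hu, map_add, map_zsmul, hcomm, hd, hdu, map_add, map_zsmul]
  have e3 : w ((2 * s) • d + w (du + u')) = 0 := by
    have : w (s • d + w du) + w (io d) = 0 := by rw [← e2, e1, neg_add_cancel]
    rw [hu', ← map_add] at this
    rw [← this]
    congr 1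
    rw [map_add, two_mul, add_zsmul]
    abel
  obtain ⟨u2, hu2⟩ := hU _ e3
  have e4 : (2 : ℤ) • d = w (s • (w u2 - (du + u'))) := by
    have : (2 * s) • d = w (w u2 - (du + u')) := by
      rw [map_sub, ← hu2]
      abel
    rw [map_zsmul, ← this, smul_smul]
    congr 1
    calc (2 : ℤ) = 2 * (s * s) := by rw [hs, mul_one]
      _ = s * (2 * s) := by ring
  obtain ⟨y, hy⟩ := h2 d _ e4
  exact ⟨y, by rw [hd, hy]⟩

/-- **(R), abstract form on `H' = H / Nm H`.**  `ψ` stands for `φ - q φ⁻¹`. -/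
theorem exists_beta (dl dli Sg ψ io : AddMonoid.End H) (s : ℤ) (hs : s * s = 1)
    (hdl : dl * dli = 1) (hdl' : dli * dl = 1)
    (c1 : Commute dl Sg) (c2 : Commute dl ψ) (c3 : Commute Sg ψ)
    (h3 : (Sg - 1) * (Sg - dl) = 0)
    (i1 : io * dl = dli * io) (i2 : io * Sg = dli * Sg * io) (i3 : io * ψ = ψ * io)
    (is : ∀ x, ∃ u, io x = s • x + (dl - 1) u)
    (hU : ∀ z, (dl - 1) z = 0 → ∃ u, z = (dl - 1) ((dl - 1) u))
    (h2 : ∀ z u, (2 : ℤ) • z = (dl - 1) u → ∃ u', z = (dl - 1) u')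
    (hNP : ∀ x, ∃ u, (Sg - 1) (ψ x) = (dl - 1) u)
    (bar : H →+ V) (hbar : Function.Surjective bar)
    (hker : ∀ x, bar x = 0 ↔ ∃ u, x = (dl - 1) u) :
    ∃ β : V →+ V,
      (∀ x, (2 : ℤ) • β (bar ((Sg - 1) x)) = bar (ψ x)) ∧
      (∀ (g : AddMonoid.End H) (gV : V →+ V), (∀ x, bar (g x) = gV (bar x)) →
        Commute g (dl - 1) → Commute g ((2 * (Sg - 1) - (dl - 1)) * ψ) →
        ∀ v, β (gV v) = gV (β v)) := by
  set w : AddMonoid.End H := dl - 1 with hw
  set ν : AddMonoid.End H := Sg - 1 with hν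
  set C : AddMonoid.End H := (2 * ν - w) * ψ with hC
  have cwν : Commute w ν := (c1.sub_left (Commute.one_left _)).sub_right (Commute.one_right _)
  have cwψ : Commute w ψ := c2.sub_left (Commute.one_left _)
  have cνψ : Commute ν ψ := c3.sub_left (Commute.one_left _)
  have hν2 : ν * ν = w * ν := by
    have : ν * (ν - w) = 0 := by
      have e : ν - w = Sg - dl := by rw [hν, hw]; abel
      rw [e]; exact h3
    rw [mul_sub, sub_eq_zero] at this
    rw [this, cwν.eq]
  have hwC : Commute w C := by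
    apply Commute.mul_right _ cwψ
    apply Commute.sub_right _ (Commute.refl w)
    exact Commute.mul_right (Commute.ofNat_right w 2) cwν
  have h1 : ∀ x, ∃ d, C x = w d := by
    intro x
    obtain ⟨u, hu⟩ := hNP x
    refine ⟨(2 : ℤ) • u - ψ x, ?_⟩
    have e : C x = (2 : ℤ) • ν (ψ x) - w (ψ x) := by
      have : C = (2 : ℤ) • (ν * ψ) - w * ψ := by rw [hC]; noncomm_ring
      rw [this]; rfl
    rw [e, hu, map_sub, map_zsmul]
  have iw : io * w = - (dli * w * io) := by
    have e1 : dli * w = 1 - dli := by rw [hw, mul_sub, hdl', mul_one]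
    rw [e1, hw, mul_sub, i1, mul_one, sub_mul, one_mul]
    abel
  have iT : io * (2 * ν - w) = dli * (2 * ν - w) * io := by
    have e0 : (2 * ν - w : AddMonoid.End H) = 2 * Sg - 1 - dl := by rw [hν, hw]; noncomm_ring
    have e1 : dli * (2 * Sg - 1 - dl) * io = 2 * (dli * Sg * io) - dli * io - dli * dl * io := by
      noncomm_ring
    have e2 : io * (2 * Sg - 1 - dl) = 2 * (io * Sg) - io - io * dl := by noncomm_ring
    rw [e0, e1, e2, i1, i2, hdl', one_mul]
    abel
  have iC : io * C = dli * C * io := by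
    rw [hC, ← mul_assoc, iT, mul_assoc, i3]
    noncomm_ring
  have hCsq : ∀ x, ∃ y, C x = w (w y) :=
    exists_sq w C dl dli io s hs hdl hwC hU h2 h1 iw iC is
  obtain ⟨β, hβ⟩ := exists_div w C hwC hU hCsq bar hbar hker
  refine ⟨β, ?_, ?_⟩
  · intro x
    obtain ⟨yx, hyx⟩ := hCsq x
    obtain ⟨y', hy'⟩ := hCsq (ν x)
    rw [hβ _ _ hy']
    -- `2 C ν = w² ψ + w C`
    have id1 : (2 : ℤ) • (C * ν) = w * w * ψ + w * C := by
      have a1 : C * ν = w * ν * ψ := by
        calc C * ν = (2 * ν - w) * (ψ * ν) := by rw [hC, mul_assoc]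
          _ = (2 * ν - w) * (ν * ψ) := by rw [cνψ.eq]
          _ = (2 * (ν * ν) - w * ν) * ψ := by noncomm_ring
          _ = (2 * (w * ν) - w * ν) * ψ := by rw [hν2]
          _ = w * ν * ψ := by noncomm_ring
      rw [a1, hC]
      noncomm_ring
    have id2 : (2 : ℤ) • C (ν x) = w (w (ψ x)) + w (C x) := DFunLike.congr_fun id1 x
    have e1 : w (w ((2 : ℤ) • y' - ψ x - w yx)) = 0 := by
      rw [map_sub, map_sub, map_sub, map_sub, map_zsmul, map_zsmul, ← hy', id2, ← hyx]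
      abel
    obtain ⟨u, hu⟩ := mem_of_sq_eq_zero w hU _ e1
    have e2 : bar ((2 : ℤ) • y' - ψ x - w yx) = 0 := (hker _).2 ⟨u, hu⟩
    have e3 : bar (w yx) = 0 := (hker _).2 ⟨yx, rfl⟩
    rw [map_sub, map_sub, e3, sub_zero, sub_eq_zero, map_zsmul] at e2
    exact e2
  · intro g gV hg cgw cgC v
    obtain ⟨x, rfl⟩ := hbar v
    obtain ⟨y, hy⟩ := hCsq x
    have a1 : ∀ z, g (w z) = w (g z) := fun z => DFunLike.congr_fun cgw.eq z
    have a2 : ∀ z, g (C z) = C (g z) := fun z => DFunLike.congr_fun cgC.eq z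
    have e : C (g x) = w (w (g y)) := by rw [← a2, hy, a1, a1]
    rw [← hg, hβ _ _ e, hβ _ _ hy, hg]

end Fermat.Agent.S43.GS3
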